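import Mathlib
import Fermat.Agent.LT.T7.Spec
import Fermat.Agent.LT.T1.H930.AdeleAut

/-!
# Row LT, tower T7, leaf T7.02 `ConjC` (owner helper621) -- the CUT, frozen interfaces

OFF-MAIN.  Definitions, frozen sub-leaf Props, PROVED top.  No `sorry`, nothing assumed.

Vocabulary: `LT/T7/Spec.lean` (helper797@31d807178, byte-identical), `LT/H556/A0.lean`
(helper556@0fa0be5a0, byte-identical), `LT/T1/H930/AdeleAut.lean` (helper930@55cec4b4d,
byte-identical: the adelic isomorphism `adeleEquiv930 s` of a field isomorphism `s`, with its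
components `finMapEquiv930`, `infMapHom930` and the pulled back places `finPull930`, `infPull930`).

## Objects (all explicit)

* `conjG621 s : GL₂(𝔸_K) →* GL₂(𝔸_K)` : `adeleEquiv930 s` entrywise.
* `conjFn621 s φ = φ ∘ conjG621 s⁻¹` : the transported function.
* `conjSys621 s π` : level `s(𝔫)`, `a_{v'} = a_{s⁻¹ v'}`, `b_{v'} = b_{s⁻¹ v'}`
  (`s⁻¹ v' = finPull930 s v'`).

## The cut

    T7.ConjC K  ⟸  ConjPlaceC621 + ConjLevelC621 + ConjArchC621 + ConjMeanC621 + ConjCuspC621
                     + ConjHeckeC621                        (`conjC_of_leaves621`, PROVED here)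

| leaf | content | size |
|---|---|---|
| `ConjPlaceC621` | `PlaceImage s v v' → v = finPull930 s v'`; `v' ∤ s(𝔫) → s⁻¹ v' ∤ 𝔫`; `w ↦ w ∘ s` keeps real / complex | 100 |
| `ConjLevelC621` | `u ∈ U(s 𝔫) → s⁻¹ u ∈ U(𝔫)` (closure of the ideal in `K_v`, continuity of the local map) | 200 |
| `ConjArchC621` | positive scalars and `U(2)` / `SO(2)` at `w` go to the same at `w ∘ s`; the local map at an infinite place is the identity or the complex conjugation through the embeddings | 300 |
| `ConjMeanC621` | the mean value properties at `w ∘ s` for `φ` give them at `w` for `φ ∘ s⁻¹`; conjugate case: `conj (rotZ α) = rotZ (-α)`, `rotZ (α + 2π) = - rotZ α`, `-1 ∈ U(2)`, periodicity | 400 |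
| `ConjCuspC621` | vanishing constant term is transported (`s` maps Haar measures to Haar measures and fundamental domains of `K` to fundamental domains of `K`) | 250 |
| `ConjHeckeC621` | Hecke coset systems and scalar uniformisers at `v'` go to the same at `s⁻¹ v'`; `N(s⁻¹ v') = N(v')` | 350 |

Every Prop is a TRUE statement of mathematics (checked by the owner; the proofs are transport of
structure along `adeleEquiv930 s.symm`).
-/

set_option autoImplicit false

open IsDedekindDomain NumberField AutomorphicForm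
open scoped MatrixGroups

noncomputable section

namespace Fermat.Agent.LT.T7.H621

open Fermat.Agent.LT.H556 Fermat.Agent.LT.H556.A0 Fermat.Agent.LT.T1.H930

variable {K : Type} [Field K] [NumberField K]

/-! ## The objects -/

/-- The automorphism of `GL₂(𝔸_K)` induced by the automorphism `s` of `K`. -/
def conjG621 (s : K ≃+* K) : G K →* G K :=
  Matrix.GeneralLinearGroup.map ((adeleEquiv930 s : Adl K ≃+* Adl K) : Adl K →+* Adl K)

theorem conjG621_apply (s : K ≃+* K) (g : G K) (i j : Fin 2) :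
    (conjG621 s g : Matrix (Fin 2) (Fin 2) (Adl K)) i j
      = adeleEquiv930 s ((g : Matrix (Fin 2) (Fin 2) (Adl K)) i j) :=
  rfl

theorem continuous_conjG621 (s : K ≃+* K) : Continuous (conjG621 (K := K) s) :=
  Continuous.generalLinearGroup_map
    (f := ((adeleEquiv930 s : Adl K ≃+* Adl K) : Adl K →+* Adl K)) (continuous_adeleEquiv930 s)

theorem conjG621_symm_conjG621 (s : K ≃+* K) (g : G K) :
    conjG621 s.symm (conjG621 s g) = g := by
  apply Units.ext
  ext i j
  rw [conjG621_apply, conjG621_apply]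
  exact adeleEquiv930_symm_apply_apply s _

theorem conjG621_conjG621_symm (s : K ≃+* K) (g : G K) :
    conjG621 s (conjG621 s.symm g) = g := by
  apply Units.ext
  ext i j
  rw [conjG621_apply, conjG621_apply]
  exact adeleEquiv930_apply_symm_apply s _

theorem conjG621_rat (s : K ≃+* K) (γ : GL (Fin 2) K) :
    conjG621 s (Matrix.GeneralLinearGroup.map (algebraMap K (Adl K)) γ)
      = Matrix.GeneralLinearGroup.map (algebraMap K (Adl K))
          (Matrix.GeneralLinearGroup.map (s : K →+* K) γ) := by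
  apply Units.ext
  ext i j
  rw [conjG621_apply]
  exact adeleEquiv930_algebraMap s _

/-- The transported function `φ ∘ s⁻¹`. -/
def conjFn621 (s : K ≃+* K) (φ : G K → ℂ) : G K → ℂ := fun g => φ (conjG621 s.symm g)

theorem conjFn621_apply (s : K ≃+* K) (φ : G K → ℂ) (g : G K) :
    conjFn621 s φ g = φ (conjG621 s.symm g) := rfl

/-- The ideal `s(𝔫)`. -/
def conjLevel621 (s : K ≃+* K) (𝔫 : Ideal (𝓞 K)) : Ideal (𝓞 K) :=
  𝔫.comap ((RingOfIntegers.mapRingEquiv s.symm : 𝓞 K ≃+* 𝓞 K) : 𝓞 K →+* 𝓞 K)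

omit [NumberField K] in
theorem mem_conjLevel621 (s : K ≃+* K) (𝔫 : Ideal (𝓞 K)) (y : 𝓞 K) :
    y ∈ conjLevel621 s 𝔫 ↔ RingOfIntegers.mapRingEquiv s.symm y ∈ 𝔫 := Iff.rfl

omit [NumberField K] in
theorem conjLevel621_ne_bot (s : K ≃+* K) (𝔫 : Ideal (𝓞 K)) (h : 𝔫 ≠ ⊥) :
    conjLevel621 s 𝔫 ≠ ⊥ := by
  intro h0
  apply h
  rw [eq_bot_iff]
  intro x hx
  have hy : RingOfIntegers.mapRingEquiv s x ∈ conjLevel621 s 𝔫 := by
    rw [mem_conjLevel621]
    have : RingOfIntegers.mapRingEquiv s.symm (RingOfIntegers.mapRingEquiv s x) = x := by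
      apply RingOfIntegers.ext
      show s.symm (s (x : K)) = x
      exact s.symm_apply_apply _
    rw [this]
    exact hx
  rw [h0, Ideal.mem_bot] at hy
  rw [Ideal.mem_bot]
  exact (RingOfIntegers.mapRingEquiv s).injective (by rw [hy, map_zero])

/-- The transported eigensystem: level `s(𝔫)`, values at `v'` = values at `s⁻¹ v'`. -/
def conjSys621 (s : K ≃+* K) (π : HeckeEigensystem K ℂ) : HeckeEigensystem K ℂ where
  level := conjLevel621 s π.level
  level_ne_bot := conjLevel621_ne_bot s π.level π.level_ne_bot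
  a := fun v' => π.a (finPull930 s v')
  b := fun v' => π.b (finPull930 s v')

/-! ## The sub-leaves -/

/-- **T7.02.1 PLACE.**  (1) `PlaceImage s v v'` means `v = s⁻¹ v' = finPull930 s v'`;
(2) `s⁻¹ v' ∣ 𝔫 → v' ∣ s(𝔫)`; (3) `w ↦ w ∘ s` preserves the type of an infinite place. -/
def ConjPlaceC621 (K : Type) [Field K] [NumberField K] : Prop :=
  ∀ s : K ≃+* K,
    (∀ v v' : HeightOneSpectrum (𝓞 K), T7.PlaceImage s v v' → v = finPull930 s v') ∧
    (∀ (𝔫 : Ideal (𝓞 K)) (v' : HeightOneSpectrum (𝓞 K)),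
      ¬ v'.asIdeal ∣ conjLevel621 s 𝔫 → ¬ (finPull930 s v').asIdeal ∣ 𝔫) ∧
    ∀ w : InfinitePlace K,
      (w.IsComplex → (infPull930 s w).IsComplex) ∧ (w.IsReal → (infPull930 s w).IsReal)

/-- **T7.02.2 LEVEL.**  `u ∈ U(s(𝔫)) → s⁻¹(u) ∈ U(𝔫)`. -/
def ConjLevelC621 (K : Type) [Field K] [NumberField K] : Prop :=
  ∀ (s : K ≃+* K) (𝔫 : Ideal (𝓞 K)) (u : G K),
    InLevelGroup (conjLevel621 s 𝔫) u → InLevelGroup 𝔫 (conjG621 s.symm u)

/-- **T7.02.3 ARCH.**  Positive real scalars and the maximal connected compact subgroup at `w` go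
to the same at `w ∘ s` under `s⁻¹`. -/
def ConjArchC621 (K : Type) [Field K] [NumberField K] : Prop :=
  ∀ (s : K ≃+* K) (w : InfinitePlace K) (z : G K),
    (IsArchPosScalar w z → IsArchPosScalar (infPull930 s w) (conjG621 s.symm z)) ∧
    (IsArchCompact w z → IsArchCompact (infPull930 s w) (conjG621 s.symm z))

/-- **T7.02.4 MEAN.**  For `φ` right invariant under the compact subgroups at infinity: the
mean value property of `φ` at `w ∘ s` gives the one of `φ ∘ s⁻¹` at `w` (complex and real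
places). -/
def ConjMeanC621 (K : Type) [Field K] [NumberField K] : Prop :=
  ∀ (s : K ≃+* K) (φ : G K → ℂ),
    (∀ (w : InfinitePlace K) (k : G K), IsArchCompact w k → ∀ g : G K, φ (g * k) = φ g) →
    ∀ w : InfinitePlace K,
      (w.IsComplex → MeanValueComplex φ (infPull930 s w) → MeanValueComplex (conjFn621 s φ) w) ∧
      (w.IsReal → MeanValueReal φ (infPull930 s w) → MeanValueReal (conjFn621 s φ) w)

/-- **T7.02.5 CUSP.**  The vanishing of the constant term is transported. -/
def ConjCuspC621 (K : Type) [Field K] [NumberField K] : Prop :=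
  ∀ (s : K ≃+* K) (φ : G K → ℂ), IsCuspidalFn φ → IsCuspidalFn (conjFn621 s φ)

/-- **T7.02.6 HECKE.**  The Hecke eigen-property at `s⁻¹ v'` for `φ` gives the one at `v'` for
`φ ∘ s⁻¹`, with the same eigenvalues. -/
def ConjHeckeC621 (K : Type) [Field K] [NumberField K] : Prop :=
  ∀ (s : K ≃+* K) (φ : G K → ℂ) (v' : HeightOneSpectrum (𝓞 K)) (a b : ℂ),
    IsHeckeEigenAt φ (finPull930 s v') a b → IsHeckeEigenAt (conjFn621 s φ) v' a b

/-! ## The top -/

/-- The transported function is a cusp form as in A0 for the transported eigensystem. -/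
theorem isSph0CuspFormFor_conj621 (hP : ConjPlaceC621 K) (hL : ConjLevelC621 K)
    (hA : ConjArchC621 K) (hM : ConjMeanC621 K) (hCu : ConjCuspC621 K) (hH : ConjHeckeC621 K)
    (s : K ≃+* K) (π : HeckeEigensystem K ℂ) (φ : G K → ℂ) (hφ : IsSph0CuspFormFor π φ) :
    IsSph0CuspFormFor (conjSys621 s π) (conjFn621 s φ) where
  cont := hφ.cont.comp (continuous_conjG621 s.symm)
  bdd := by
    obtain ⟨C, hC⟩ := hφ.bdd
    exact ⟨C, fun g => hC _⟩
  ne_zero := by
    obtain ⟨g, hg⟩ := hφ.ne_zero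
    refine ⟨conjG621 s g, ?_⟩
    rw [conjFn621_apply, conjG621_symm_conjG621]
    exact hg
  left_inv := fun γ g => by
    rw [conjFn621_apply, conjFn621_apply, map_mul, conjG621_rat]
    exact hφ.left_inv _ _
  level_inv := fun u hu g => by
    rw [conjFn621_apply, conjFn621_apply, map_mul]
    exact hφ.level_inv _ (hL s π.level u hu) _
  arch_scalar := fun w z hz g => by
    rw [conjFn621_apply, conjFn621_apply, map_mul]
    exact hφ.arch_scalar _ _ ((hA s w z).1 hz) _
  arch_compact := fun w k hk g => by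
    rw [conjFn621_apply, conjFn621_apply, map_mul]
    exact hφ.arch_compact _ _ ((hA s w k).2 hk) _
  mean_complex := fun w hw =>
    (hM s φ hφ.arch_compact w).1 hw (hφ.mean_complex _ (((hP s).2.2 w).1 hw))
  mean_real := fun w hw =>
    (hM s φ hφ.arch_compact w).2 hw (hφ.mean_real _ (((hP s).2.2 w).2 hw))
  cuspidal := hCu s φ hφ.cuspidal
  hecke := fun v' hv' =>
    hH s φ v' _ _ (hφ.hecke _ ((hP s).2.1 π.level v' hv'))

/-- **T7.02 `ConjC` from its sub-leaves.** -/
theorem conjC_of_leaves621 (hP : ConjPlaceC621 K) (hL : ConjLevelC621 K)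
    (hA : ConjArchC621 K) (hM : ConjMeanC621 K) (hCu : ConjCuspC621 K) (hH : ConjHeckeC621 K) :
    T7.ConjC K := by
  intro s π hπ
  obtain ⟨φ, hφ⟩ := hπ
  refine ⟨conjSys621 s π, ⟨conjFn621 s φ, isSph0CuspFormFor_conj621 hP hL hA hM hCu hH s π φ hφ⟩,
    ∅, fun v _ v' hvv' => ?_⟩
  have hv : v = finPull930 s v' := (hP s).1 v v' hvv'
  subst hv
  exact ⟨rfl, rfl⟩

/-- **T7.02 `ConjAll` from its sub-leaves.** -/
theorem conjAll_of_leaves621
    (hP : ∀ (K : Type) [Field K] [NumberField K], ConjPlaceC621 K)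
    (hL : ∀ (K : Type) [Field K] [NumberField K], ConjLevelC621 K)
    (hA : ∀ (K : Type) [Field K] [NumberField K], ConjArchC621 K)
    (hM : ∀ (K : Type) [Field K] [NumberField K], ConjMeanC621 K)
    (hCu : ∀ (K : Type) [Field K] [NumberField K], ConjCuspC621 K)
    (hH : ∀ (K : Type) [Field K] [NumberField K], ConjHeckeC621 K) : T7.ConjAll :=
  fun K _ _ => conjC_of_leaves621 (hP K) (hL K) (hA K) (hM K) (hCu K) (hH K)

end Fermat.Agent.LT.T7.H621

end
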