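import Mathlib
import Fermat.Agent.LT.T7.H621.ConjSpec

/-!
# Row LT, tower T7, leaf T7.02: the infinite places (helper621)

OFF-MAIN.  The local map of `adeleEquiv930 e` at an infinite place is, through the two
`extensionEmbedding`s, the identity or the complex conjugation; transport of the archimedean
predicates of A0 along `conjG621 s.symm`.  Sub-leaf `ConjArchC621` PROVED.
-/

set_option autoImplicit false
set_option linter.unusedSectionVars false

open IsDedekindDomain NumberField AutomorphicForm
open scoped MatrixGroups ComplexConjugate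

noncomputable section

namespace Fermat.Agent.LT.T7.H621

open Fermat.Agent.LT.H556 Fermat.Agent.LT.H556.A0 Fermat.Agent.LT.T1.H930
open NumberField.InfinitePlace

variable {K : Type} [Field K] [NumberField K]

/-! ## The key lemma -/

omit [NumberField K] in
/-- **KEY LEMMA.**  Through the embeddings into `ℂ`, the completion map at an infinite place is
the identity or the complex conjugation. -/
theorem ext_infMapHom621 (e : K ≃+* K) (w : InfinitePlace K) :
    (∀ y : (infPull930 e w).Completion,
      Completion.extensionEmbedding w (infMapHom930 e w y)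
        = Completion.extensionEmbedding (infPull930 e w) y) ∨
    (∀ y : (infPull930 e w).Completion,
      Completion.extensionEmbedding w (infMapHom930 e w y)
        = conj (Completion.extensionEmbedding (infPull930 e w) y)) := by
  set w₁ := infPull930 e w with hw₁
  have hmk : InfinitePlace.mk (w.embedding.comp (e : K →+* K)) = InfinitePlace.mk w₁.embedding := by
    rw [mk_embedding, ← comap_mk, mk_embedding]
    rfl
  have hc1 : Continuous fun y : w₁.Completion =>
      Completion.extensionEmbedding w (infMapHom930 e w y) :=
    (Completion.isometry_extensionEmbedding w).continuous.comp (continuous_infMapHom930 e w)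
  have hc2 : Continuous fun y : w₁.Completion => Completion.extensionEmbedding w₁ y :=
    (Completion.isometry_extensionEmbedding w₁).continuous
  have hcoe : ∀ x : K, Completion.extensionEmbedding w (infMapHom930 e w (x : w₁.Completion))
      = w.embedding (e x) := by
    intro x
    rw [infMapHom930_coe]
    exact Completion.extensionEmbedding_coe w (WithAbs.toAbs _ (e x))
  have hcoe1 : ∀ x : K, Completion.extensionEmbedding w₁ (x : w₁.Completion) = w₁.embedding x :=
    fun x => Completion.extensionEmbedding_coe w₁ (WithAbs.toAbs _ x)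
  rcases mk_eq_iff.mp hmk with h | h
  · left
    intro y
    refine Completion.induction_on w₁ (p := fun y =>
      Completion.extensionEmbedding w (infMapHom930 e w y)
        = Completion.extensionEmbedding w₁ y) y (isClosed_eq hc1 hc2) fun a => ?_
    have := hcoe a.ofAbs
    have h1 := hcoe1 a.ofAbs
    have hx : w.embedding (e a.ofAbs) = w₁.embedding a.ofAbs := by
      rw [← h]; rfl
    exact this.trans (hx.trans h1.symm)
  · right
    intro y
    refine Completion.induction_on w₁ (p := fun y =>
      Completion.extensionEmbedding w (infMapHom930 e w y)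
        = conj (Completion.extensionEmbedding w₁ y)) y
      (isClosed_eq hc1 (Complex.continuous_conj.comp hc2)) fun a => ?_
    have := hcoe a.ofAbs
    have h1 := hcoe1 a.ofAbs
    have hx : w.embedding (e a.ofAbs) = conj (w₁.embedding a.ofAbs) := by
      rw [← h, ComplexEmbedding.conjugate_coe_eq, Complex.conj_conj]; rfl
    exact this.trans (hx.trans (congrArg conj h1.symm))

/-! ## Components of `conjG621` -/

theorem conjG621_fst (e : K ≃+* K) (g : G K) (i j : Fin 2) (w : InfinitePlace K) :
    ((conjG621 e g : Matrix (Fin 2) (Fin 2) (Adl K)) i j).1 w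
      = infMapHom930 e w (((g : Matrix (Fin 2) (Fin 2) (Adl K)) i j).1 (infPull930 e w)) :=
  rfl

theorem conjG621_snd (e : K ≃+* K) (g : G K) (i j : Fin 2) (v : HeightOneSpectrum (𝓞 K)) :
    ((conjG621 e g : Matrix (Fin 2) (Fin 2) (Adl K)) i j).2 v
      = finMapEquiv930 e v (((g : Matrix (Fin 2) (Fin 2) (Adl K)) i j).2 (finPull930 e v)) :=
  rfl

theorem finComp_conjG621 (e : K ≃+* K) (g : G K) (v : HeightOneSpectrum (𝓞 K)) :
    finComp v (conjG621 e g)
      = (finComp (finPull930 e v) g).map (finMapEquiv930 e v) := by
  ext i j
  rfl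

theorem trivAtInf_conjG621 (e : K ≃+* K) (w : InfinitePlace K) (g : G K)
    (h : TrivAtInf (infPull930 e w) g) : TrivAtInf w (conjG621 e g) := by
  intro i j
  rw [conjG621_fst, h i j]
  by_cases hij : i = j
  · subst hij
    simp
  · simp [Matrix.one_apply_ne hij]

theorem trivAtFin_conjG621 (e : K ≃+* K) (v : HeightOneSpectrum (𝓞 K)) (g : G K)
    (h : TrivAtFin (finPull930 e v) g) : TrivAtFin v (conjG621 e g) := by
  unfold TrivAtFin at h ⊢
  rw [finComp_conjG621, h]
  ext i j
  by_cases hij : i = j
  · subst hij
    simp
  · simp [Matrix.one_apply_ne hij]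

theorem infPull930_symm_left621 (s : K ≃+* K) (w : InfinitePlace K) :
    infPull930 s.symm (infPull930 s w) = w :=
  infPull930_symm s.symm w

theorem finPull930_symm_left621 (s : K ≃+* K) (v : HeightOneSpectrum (𝓞 K)) :
    finPull930 s.symm (finPull930 s v) = v := by
  apply HeightOneSpectrum.ext
  ext x
  show RingOfIntegers.mapRingEquiv s (RingOfIntegers.mapRingEquiv s.symm x) ∈ v.asIdeal ↔ _
  have : RingOfIntegers.mapRingEquiv s (RingOfIntegers.mapRingEquiv s.symm x) = x := by
    apply RingOfIntegers.ext
    show s (s.symm (x : K)) = x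
    exact s.apply_symm_apply _
  rw [this]

theorem finPull930_symm_right621 (s : K ≃+* K) (v : HeightOneSpectrum (𝓞 K)) :
    finPull930 s (finPull930 s.symm v) = v :=
  finPull930_symm_left621 s.symm v

/-- An element supported at the infinite place `w` goes to an element supported at `w ∘ s`. -/
theorem isLocalAtInf_conjG621 (s : K ≃+* K) (w : InfinitePlace K) (g : G K)
    (h : IsLocalAtInf w g) : IsLocalAtInf (infPull930 s w) (conjG621 s.symm g) := by
  refine ⟨fun w₀ hw₀ => trivAtInf_conjG621 _ _ _ (h.1 _ fun hEq => hw₀ ?_),
    fun v => trivAtFin_conjG621 _ _ _ (h.2 _)⟩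
  rw [← hEq]
  exact (infPull930_symm s w₀).symm

/-- An element supported at the finite place `v'` goes to an element supported at `s⁻¹ v'`. -/
theorem isLocalAtFin_conjG621 (s : K ≃+* K) (v' : HeightOneSpectrum (𝓞 K)) (g : G K)
    (h : IsLocalAtFin v' g) : IsLocalAtFin (finPull930 s v') (conjG621 s.symm g) := by
  refine ⟨fun w => trivAtInf_conjG621 _ _ _ (h.1 _),
    fun v hv => trivAtFin_conjG621 _ _ _ (h.2 _ fun hEq => hv ?_)⟩
  rw [← hEq]
  exact (finPull930_symm_right621 s v).symm

theorem infComp_conjG621_aux (e : K ≃+* K) (w₀ w' : InfinitePlace K)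
    (h : infPull930 e w₀ = w') :
    (∀ g : G K, infComp w₀ (conjG621 e g) = infComp w' g) ∨
    (∀ g : G K, infComp w₀ (conjG621 e g) = (infComp w' g).map conj) := by
  subst h
  rcases ext_infMapHom621 e w₀ with h | h
  · left
    intro g
    ext i j
    exact h _
  · right
    intro g
    ext i j
    exact h _

/-- Through the embeddings, the component of `s⁻¹ g` at `w ∘ s` is the component of `g` at `w`
or its complex conjugate (uniformly in `g`). -/
theorem infComp_conjG621 (s : K ≃+* K) (w : InfinitePlace K) :
    (∀ g : G K, infComp (infPull930 s w) (conjG621 s.symm g) = infComp w g) ∨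
    (∀ g : G K, infComp (infPull930 s w) (conjG621 s.symm g) = (infComp w g).map conj) :=
  infComp_conjG621_aux s.symm (infPull930 s w) w (infPull930_symm_left621 s w)

/-! ## `ConjArchC621` -/

theorem map_conj_mul_conjTranspose621 (M : Matrix (Fin 2) (Fin 2) ℂ)
    (h : M * M.conjTranspose = 1) : M.map conj * (M.map conj).conjTranspose = 1 := by
  have h1 : (M.map conj).conjTranspose = (M.conjTranspose).map conj := by
    ext i j
    simp [Matrix.conjTranspose_apply]
  rw [h1]
  have h2 : M.map conj * (M.conjTranspose).map conj = (M * M.conjTranspose).map conj := by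
    rw [← RingHom.mapMatrix_apply, ← RingHom.mapMatrix_apply, ← RingHom.mapMatrix_apply, map_mul]
  rw [h2, h]
  ext i j
  by_cases hij : i = j
  · subst hij; simp
  · simp [Matrix.one_apply_ne hij]

theorem det_map_conj621 (M : Matrix (Fin 2) (Fin 2) ℂ) : (M.map conj).det = conj M.det := by
  rw [← RingHom.mapMatrix_apply, ← RingHom.map_det]

/-- **T7.02.3 `ConjArchC621`, PROVED.** -/
theorem conjArchC621 (K : Type) [Field K] [NumberField K] : ConjArchC621 K := by
  intro s w z
  constructor
  · rintro ⟨hloc, r, hr, hz⟩
    refine ⟨isLocalAtInf_conjG621 s w z hloc, r, hr, ?_⟩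
    rcases infComp_conjG621 s w with h | h
    · rw [h, hz]
    · rw [h, hz]
      ext i j
      by_cases hij : i = j
      · subst hij; simp
      · simp [Matrix.diagonal_apply_ne _ hij]
  · rintro ⟨hloc, hu, hdet⟩
    have hreal : (infPull930 s w).IsReal → w.IsReal := fun h =>
      (isReal_comap_iff (k := K) (K := K) s (w := w)).mp h
    refine ⟨isLocalAtInf_conjG621 s w z hloc, ?_, ?_⟩
    · rcases infComp_conjG621 s w with h | h
      · rw [h]; exact hu
      · rw [h]; exact map_conj_mul_conjTranspose621 _ hu
    · intro hR
      rcases infComp_conjG621 s w with h | h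
      · rw [h]; exact hdet (hreal hR)
      · rw [h, det_map_conj621, hdet (hreal hR), map_one]

end Fermat.Agent.LT.T7.H621

end
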