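import Mathlib
import Fermat.Agent.LT.T7.H621.ConjInf

/-!
# Row LT, tower T7, leaf T7.02.4 `ConjMeanC621` (helper621)

OFF-MAIN.  The mean value properties are transported by a field automorphism.  In the conjugate
case: `conj (rotZ α) = rotZ (-α)`, `rotZ (α + 2π) = - rotZ α`, `-1 ∈ U(2)`, and the inner
integral is `2π`-periodic in `α`.
-/

set_option autoImplicit false
set_option linter.unusedSectionVars false

open IsDedekindDomain NumberField AutomorphicForm
open scoped MatrixGroups ComplexConjugate

noncomputable section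

namespace Fermat.Agent.LT.T7.H621

open Fermat.Agent.LT.H556 Fermat.Agent.LT.H556.A0 Fermat.Agent.LT.T1.H930
open NumberField.InfinitePlace

variable {K : Type} [Field K] [NumberField K]

/-! ## Component ring homomorphisms -/

/-- The component at the infinite place `w`. -/
def infProj621 (w : InfinitePlace K) : Adl K →+* w.Completion :=
  (Pi.evalRingHom (fun v : InfinitePlace K => v.Completion) w).comp
    (RingHom.fst (InfiniteAdeleRing K) (FiniteAdeleRing (𝓞 K) K))

/-- The component at the finite place `v`. -/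
def finProj621 (v : HeightOneSpectrum (𝓞 K)) : Adl K →+* v.adicCompletion K :=
  (RestrictedProduct.evalRingHom (fun v : HeightOneSpectrum (𝓞 K) => v.adicCompletion K) v).comp
    (RingHom.snd (InfiniteAdeleRing K) (FiniteAdeleRing (𝓞 K) K))

theorem trivAtInf_iff621 (w : InfinitePlace K) (g : G K) :
    TrivAtInf w g ↔ (g : Matrix (Fin 2) (Fin 2) (Adl K)).map (infProj621 w) = 1 := by
  constructor
  · intro h
    exact Matrix.ext fun i j => h i j
  · intro h i j
    exact congrFun (congrFun h i) j

theorem trivAtFin_iff621 (v : HeightOneSpectrum (𝓞 K)) (g : G K) :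
    TrivAtFin v g ↔ (g : Matrix (Fin 2) (Fin 2) (Adl K)).map (finProj621 v) = 1 :=
  Iff.rfl

theorem finComp_eq_map621 (v : HeightOneSpectrum (𝓞 K)) (g : G K) :
    finComp v g = (g : Matrix (Fin 2) (Fin 2) (Adl K)).map (finProj621 v) := rfl

theorem infComp_eq_map621 (w : InfinitePlace K) (g : G K) :
    infComp w g = (g : Matrix (Fin 2) (Fin 2) (Adl K)).map
      ((Completion.extensionEmbedding w).comp (infProj621 w)) := rfl

theorem map_one_of621 {R : Type*} [CommRing R] (f : Adl K →+* R) (g h : G K)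
    (hg : (g : Matrix (Fin 2) (Fin 2) (Adl K)).map f = 1)
    (hh : (h : Matrix (Fin 2) (Fin 2) (Adl K)).map f = 1) :
    ((g * h : G K) : Matrix (Fin 2) (Fin 2) (Adl K)).map f = 1 := by
  rw [Units.val_mul, Matrix.map_mul, hg, hh, one_mul]

theorem map_mul621 {R : Type*} [CommRing R] (f : Adl K →+* R) (g h : G K) :
    ((g * h : G K) : Matrix (Fin 2) (Fin 2) (Adl K)).map f
      = (g : Matrix (Fin 2) (Fin 2) (Adl K)).map f * (h : Matrix (Fin 2) (Fin 2) (Adl K)).map f := by
  rw [Units.val_mul, Matrix.map_mul]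

theorem map_inv_mul621 {R : Type*} [CommRing R] (f : Adl K →+* R) (g : G K) :
    ((g⁻¹ : G K) : Matrix (Fin 2) (Fin 2) (Adl K)).map f
      * (g : Matrix (Fin 2) (Fin 2) (Adl K)).map f = 1 := by
  rw [← map_mul621, inv_mul_cancel]
  ext i j
  by_cases hij : i = j
  · subst hij; simp
  · simp [Matrix.one_apply_ne hij]

theorem map_inv_one_of621 {R : Type*} [CommRing R] (f : Adl K →+* R) (g : G K)
    (hg : (g : Matrix (Fin 2) (Fin 2) (Adl K)).map f = 1) :
    ((g⁻¹ : G K) : Matrix (Fin 2) (Fin 2) (Adl K)).map f = 1 := by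
  have := map_inv_mul621 f g
  rwa [hg, mul_one] at this

theorem infComp_mul621 (w : InfinitePlace K) (g h : G K) :
    infComp w (g * h) = infComp w g * infComp w h := by
  rw [infComp_eq_map621, infComp_eq_map621, infComp_eq_map621, map_mul621]

theorem infComp_inv_mul621 (w : InfinitePlace K) (g : G K) :
    infComp w g⁻¹ * infComp w g = 1 := by
  rw [infComp_eq_map621, infComp_eq_map621, map_inv_mul621]

theorem finComp_mul621 (v : HeightOneSpectrum (𝓞 K)) (g h : G K) :
    finComp v (g * h) = finComp v g * finComp v h := by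
  rw [finComp_eq_map621, finComp_eq_map621, finComp_eq_map621, map_mul621]

theorem isLocalAtInf_mul621 (w : InfinitePlace K) (g h : G K) (hg : IsLocalAtInf w g)
    (hh : IsLocalAtInf w h) : IsLocalAtInf w (g * h) := by
  refine ⟨fun w' hw' => ?_, fun v => ?_⟩
  · rw [trivAtInf_iff621]
    exact map_one_of621 _ g h ((trivAtInf_iff621 w' g).1 (hg.1 w' hw'))
      ((trivAtInf_iff621 w' h).1 (hh.1 w' hw'))
  · rw [trivAtFin_iff621]
    exact map_one_of621 _ g h ((trivAtFin_iff621 v g).1 (hg.2 v)) ((trivAtFin_iff621 v h).1 (hh.2 v))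

theorem isLocalAtInf_inv621 (w : InfinitePlace K) (g : G K) (hg : IsLocalAtInf w g) :
    IsLocalAtInf w g⁻¹ := by
  refine ⟨fun w' hw' => ?_, fun v => ?_⟩
  · rw [trivAtInf_iff621]
    exact map_inv_one_of621 _ g ((trivAtInf_iff621 w' g).1 (hg.1 w' hw'))
  · rw [trivAtFin_iff621]
    exact map_inv_one_of621 _ g ((trivAtFin_iff621 v g).1 (hg.2 v))

/-! ## The matrices `rotZ`, `rotY`, `torus` under complex conjugation -/

theorem map_conj_mul621 (A B : Matrix (Fin 2) (Fin 2) ℂ) :
    (A * B).map conj = A.map conj * B.map conj := by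
  rw [← RingHom.mapMatrix_apply, ← RingHom.mapMatrix_apply, ← RingHom.mapMatrix_apply, map_mul]

theorem rotZ_map_conj621 (α : ℝ) : (rotZ α).map conj = rotZ (-α) := by
  have h1 : conj (Complex.exp (Complex.I * ((α / 2 : ℝ) : ℂ)))
      = Complex.exp (Complex.I * (((-α) / 2 : ℝ) : ℂ)) := by
    rw [← Complex.exp_conj, map_mul, Complex.conj_I, Complex.conj_ofReal]
    congr 1
    push_cast
    ring
  have h2 : conj (Complex.exp (-(Complex.I * ((α / 2 : ℝ) : ℂ))))
      = Complex.exp (-(Complex.I * (((-α) / 2 : ℝ) : ℂ))) := by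
    rw [← Complex.exp_conj, map_neg, map_mul, Complex.conj_I, Complex.conj_ofReal]
    congr 1
    push_cast
    ring
  ext i j
  fin_cases i <;> fin_cases j
  · exact h1
  · show conj (0 : ℂ) = 0
    exact map_zero _
  · show conj (0 : ℂ) = 0
    exact map_zero _
  · exact h2

theorem rotY_map_conj621 (β : ℝ) : (rotY β).map conj = rotY β := by
  ext i j
  fin_cases i <;> fin_cases j
  · exact Complex.conj_ofReal _
  · show conj (-((Real.sin (β / 2) : ℝ) : ℂ)) = -((Real.sin (β / 2) : ℝ) : ℂ)
    rw [map_neg, Complex.conj_ofReal]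
  · exact Complex.conj_ofReal _
  · exact Complex.conj_ofReal _

theorem torus_map_conj621 (d : ℝ) : (torus d).map conj = torus d := by
  ext i j
  fin_cases i <;> fin_cases j
  · exact Complex.conj_ofReal _
  · show conj (0 : ℂ) = 0
    exact map_zero _
  · show conj (0 : ℂ) = 0
    exact map_zero _
  · exact Complex.conj_ofReal _

theorem rotZ_add_two_pi621 (α : ℝ) : rotZ (α + 2 * Real.pi) = -rotZ α := by
  have hπ : Complex.exp (Complex.I * (Real.pi : ℂ)) = -1 := by
    rw [mul_comm]; exact Complex.exp_pi_mul_I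
  have hπ' : Complex.exp (-(Complex.I * (Real.pi : ℂ))) = -1 := by
    rw [Complex.exp_neg, hπ]; norm_num
  have h1 : Complex.exp (Complex.I * (((α + 2 * Real.pi) / 2 : ℝ) : ℂ))
      = -Complex.exp (Complex.I * ((α / 2 : ℝ) : ℂ)) := by
    have : Complex.I * (((α + 2 * Real.pi) / 2 : ℝ) : ℂ)
        = Complex.I * ((α / 2 : ℝ) : ℂ) + Complex.I * (Real.pi : ℂ) := by
      push_cast
      ring
    rw [this, Complex.exp_add, hπ]
    ring
  have h2 : Complex.exp (-(Complex.I * (((α + 2 * Real.pi) / 2 : ℝ) : ℂ)))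
      = -Complex.exp (-(Complex.I * ((α / 2 : ℝ) : ℂ))) := by
    have : -(Complex.I * (((α + 2 * Real.pi) / 2 : ℝ) : ℂ))
        = -(Complex.I * ((α / 2 : ℝ) : ℂ)) + -(Complex.I * (Real.pi : ℂ)) := by
      push_cast
      ring
    rw [this, Complex.exp_add, hπ']
    ring
  ext i j
  fin_cases i <;> fin_cases j
  · exact h1
  · show (0 : ℂ) = -0
    rw [neg_zero]
  · show (0 : ℂ) = -0
    rw [neg_zero]
  · exact h2

/-! ## The central element `-1` at an infinite place -/

theorem isArchCompact_of_neg_one621 (w : InfinitePlace K) (c : G K) (hloc : IsLocalAtInf w c)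
    (hc : infComp w c = -1) : IsArchCompact w c := by
  refine ⟨hloc, ?_, fun _ => ?_⟩
  · rw [hc, Matrix.conjTranspose_neg, Matrix.conjTranspose_one, neg_mul_neg, one_mul]
  · rw [hc, Matrix.det_neg, Matrix.det_one]
    simp

/-! ## `ConjMeanC621` -/

/-- **T7.02.4 `ConjMeanC621`, PROVED.** -/
theorem conjMeanC621 (K : Type) [Field K] [NumberField K] : ConjMeanC621 K := by
  intro s φ hinv w
  constructor
  · -- complex places
    intro _ hmean d hd Y hY g
    have hloc : ∀ α β, IsLocalAtInf (infPull930 s w) (conjG621 s.symm (Y α β)) :=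
      fun α β => isLocalAtInf_conjG621 s w _ (hY α β).1
    have hfun : ∀ α β, conjFn621 s φ (g * Y α β)
        = φ (conjG621 s.symm g * conjG621 s.symm (Y α β)) := by
      intro α β
      rw [conjFn621_apply, map_mul]
    simp only [hfun]
    rw [conjFn621_apply]
    rcases infComp_conjG621 s w with h | h
    · exact hmean d hd (fun α β => conjG621 s.symm (Y α β))
        (fun α β => ⟨hloc α β, by rw [h, (hY α β).2]⟩) (conjG621 s.symm g)
    · -- the conjugate case
      have hcomp : ∀ α β, infComp (infPull930 s w) (conjG621 s.symm (Y α β))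
          = rotZ (-α) * rotY β * torus d := by
        intro α β
        rw [h, (hY α β).2, map_conj_mul621, map_conj_mul621, rotZ_map_conj621,
          rotY_map_conj621, torus_map_conj621]
      set Y₁ : ℝ → ℝ → G K := fun α β => conjG621 s.symm (Y (-α) β) with hY₁
      have hY₁comp : ∀ α β, infComp (infPull930 s w) (Y₁ α β) = rotZ α * rotY β * torus d := by
        intro α β
        rw [hY₁, hcomp, neg_neg]
      have key := hmean d hd Y₁ (fun α β => ⟨hloc (-α) β, hY₁comp α β⟩) (conjG621 s.symm g)
      set F₁ : ℝ → ℂ := fun α => ∫ β in (0 : ℝ)..Real.pi,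
        φ (conjG621 s.symm g * Y₁ α β) * ((Real.sin β : ℝ) : ℂ) with hF₁
      have hper : Function.Periodic F₁ (2 * Real.pi) := by
        intro α
        rw [hF₁]
        show (∫ β in (0 : ℝ)..Real.pi,
            φ (conjG621 s.symm g * Y₁ (α + 2 * Real.pi) β) * ((Real.sin β : ℝ) : ℂ))
          = ∫ β in (0 : ℝ)..Real.pi, φ (conjG621 s.symm g * Y₁ α β) * ((Real.sin β : ℝ) : ℂ)
        congr 1
        funext β
        congr 1
        -- `Y₁ (α + 2π) β = Y₁ α β * c` with `c` central of component `-1`
        set c : G K := (Y₁ α β)⁻¹ * Y₁ (α + 2 * Real.pi) β with hc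
        have hcloc : IsLocalAtInf (infPull930 s w) c :=
          isLocalAtInf_mul621 _ _ _ (isLocalAtInf_inv621 _ _ (hloc (-α) β))
            (hloc (-(α + 2 * Real.pi)) β)
        have hccomp : infComp (infPull930 s w) c = -1 := by
          rw [hc, infComp_mul621, hY₁comp (α + 2 * Real.pi) β, rotZ_add_two_pi621,
            Matrix.neg_mul, Matrix.neg_mul, Matrix.mul_neg, ← hY₁comp α β, infComp_inv_mul621]
        have hY : Y₁ (α + 2 * Real.pi) β = Y₁ α β * c := by
          rw [hc, mul_inv_cancel_left]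
        rw [hY, ← mul_assoc]
        exact hinv _ c (isArchCompact_of_neg_one621 _ c hcloc hccomp) _
      have e1 : (∫ α in (0 : ℝ)..(2 * Real.pi), ∫ β in (0 : ℝ)..Real.pi,
          φ (conjG621 s.symm g * conjG621 s.symm (Y α β)) * ((Real.sin β : ℝ) : ℂ))
          = ∫ α in (0 : ℝ)..(2 * Real.pi), F₁ (-α) := by
        congr 1
        funext α
        rw [hF₁]
        show _ = ∫ β in (0 : ℝ)..Real.pi,
          φ (conjG621 s.symm g * Y₁ (-α) β) * ((Real.sin β : ℝ) : ℂ)
        rw [hY₁]
        simp only [neg_neg]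
      rw [e1, intervalIntegral.integral_comp_neg]
      have e2 := hper.intervalIntegral_add_eq (-(2 * Real.pi)) 0
      rw [neg_add_cancel, zero_add] at e2
      rw [neg_zero, e2]
      exact key
  · -- real places
    intro _ hmean t ht Y hY g
    have hloc : ∀ θ, IsLocalAtInf (infPull930 s w) (conjG621 s.symm (Y θ)) :=
      fun θ => isLocalAtInf_conjG621 s w _ (hY θ).1
    have hfun : ∀ θ, conjFn621 s φ (g * Y θ)
        = φ (conjG621 s.symm g * conjG621 s.symm (Y θ)) := by
      intro θ
      rw [conjFn621_apply, map_mul]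
    simp only [hfun]
    rw [conjFn621_apply]
    refine hmean t ht (fun θ => conjG621 s.symm (Y θ)) (fun θ => ⟨hloc θ, ?_⟩)
      (conjG621 s.symm g)
    rcases infComp_conjG621 s w with h | h
    · rw [h, (hY θ).2]
    · rw [h, (hY θ).2, map_conj_mul621, rotY_map_conj621, torus_map_conj621]

end Fermat.Agent.LT.T7.H621

end
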