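import Mathlib
import Fermat.Agent.LT.T7.H621.ConjSpec
import Fermat.Agent.LT.T7.H621.ConjInf
import Fermat.Agent.LT.T7.H621.ConjMean
import Fermat.Agent.LT.T7.H637.ConjPlace
import Fermat.Agent.LT.T7.H362.ConjLevel
import Fermat.Agent.LT.T7.H122.ConjCusp
import Fermat.Agent.LT.T7.H584.ConjHecke

/-!
# Row LT, tower T7, leaf T7.02 `ConjC` -- CLOSED (integrator helper621)

OFF-MAIN.  `conjC621 K : T7.ConjC K` and `conjAll621 : T7.ConjAll`, VERBATIM the Props of
`LT/T7/Spec.lean` (helper797), with NO hypothesis.  Sub-leaves (all byte-identical copies):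

| sub-leaf | file | author |
|---|---|---|
| `ConjPlaceC621` | `LT/T7/H637/ConjPlace.lean` | helper637 |
| `ConjLevelC621` | `LT/T7/H362/ConjLevel.lean` | helper362 |
| `ConjArchC621`  | `LT/T7/H621/ConjInf.lean`   | helper621 |
| `ConjMeanC621`  | `LT/T7/H621/ConjMean.lean`  | helper621 |
| `ConjCuspC621`  | `LT/T7/H122/ConjCusp.lean`  | helper122 |
| `ConjHeckeC621` | `LT/T7/H584/ConjHecke.lean` | helper584 |

on the adelic automorphism `adeleEquiv930` of helper930 (`LT/T1/H930/AdeleAut.lean`).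
-/

set_option autoImplicit false

namespace Fermat.Agent.LT.T7.H621

/-- **T7.02 `ConjC`, PROVED** (no hypothesis). -/
theorem conjC621 (K : Type) [Field K] [NumberField K] : T7.ConjC K :=
  conjC_of_leaves621 (H637.conjPlaceC637 K) (H362.conjLevelC362 K) (conjArchC621 K)
    (conjMeanC621 K) (H122.conjCuspC122 K) (H584.conjHeckeC584 K)

/-- **T7.02 `ConjAll`, PROVED** (no hypothesis). -/
theorem conjAll621 : T7.ConjAll := fun K _ _ => conjC621 K

end Fermat.Agent.LT.T7.H621
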